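import Fermat.Statements.S34
import Fermat.Agent.S31.Glue
import Fermat.Agent.S31.Transfer
import Fermat.Agent.SS.Formal.Core34

/-!
# SS/Top/S34Of : S34 from `Crux` and `Crux2`
-/

set_option autoImplicit false

namespace Fermat.Agent.SS

open Polynomial IsLocalRing Fermat.Agent.ES Fermat.Agent.ES.Glue Fermat.Agent.S31

/-- The faithfulness clause of `S31.esInput`, for the explicit operators on `Kum N (p ^ n)`. -/
theorem faith_heckeEndNat (N : ℕ) [NeZero N] {p : ℕ} (hp : p.Prime) (S : Finset ℕ) :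
    ∃ c : ℕ, ∀ (n : ℕ) (ℓ ℓ' : ℕ) (hℓ : ℓ.Prime) (hℓN : ¬ ℓ ∣ N) (hℓS : ℓ ∉ (↑S : Set ℕ))
      (hℓ' : ℓ'.Prime) (hℓN' : ¬ ℓ' ∣ N) (hℓS' : ℓ' ∉ (↑S : Set ℕ)) (f f' : ℤ[X]),
      aeval (heckeEndNat N (p ^ n) ℓ) f = aeval (heckeEndNat N (p ^ n) ℓ') f' →
      ∃ z : CuspForm.heckeAlgebra N 2 (↑S : Set ℕ),
        aeval (CuspForm.heckeAlgebra.T hℓ hℓN hℓS : CuspForm.heckeAlgebra N 2 (↑S : Set ℕ)) f -
          aeval (CuspForm.heckeAlgebra.T hℓ' hℓN' hℓS' : CuspForm.heckeAlgebra N 2 (↑S : Set ℕ)) f'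
            = (p ^ (n - c) : ℕ) • z := by
  obtain ⟨c, hc⟩ := Rel.exists_shift (perL_injective N) (CuspForm.heckeAlgebra N 2 (↑S : Set ℕ)) p
  refine ⟨c, fun n => ?_⟩
  intro ℓ ℓ' hℓ hℓN hℓS hℓ' hℓN' hℓS' f f' hff'
  set g : D.GoodPrime N := ⟨ℓ, hℓ, hℓN⟩ with hg
  set g' : D.GoodPrime N := ⟨ℓ', hℓ', hℓN'⟩ with hg'
  set F : FreeAlgebra ℤ (D.GoodPrime N) :=
    aeval (FreeAlgebra.ι ℤ g) f - aeval (FreeAlgebra.ι ℤ g') f' with hF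
  have hlift : ∀ {B : Type} [Ring B] [Algebra ℤ B] (b : D.GoodPrime N → B),
      FreeAlgebra.lift ℤ b F = aeval (b g) f - aeval (b g') f' := by
    intro B _ _ b
    rw [hF, map_sub, ← aeval_algHom_apply, ← aeval_algHom_apply, FreeAlgebra.lift_ι_apply,
      FreeAlgebra.lift_ι_apply]
  have h0 : FreeAlgebra.lift ℤ (heckeT N (p ^ n)) F = 0 := by
    rw [hlift, sub_eq_zero, ← equiv_heckeEndNat N _ hℓ hℓN, ← equiv_heckeEndNat N _ hℓ' hℓN']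
    have e : ∀ (s : AddMonoid.End (Kum N (p ^ n))) (k : ℤ[X]),
        aeval (addMonoidEndRingEquivInt (Kum N (p ^ n)) s) k
          = addMonoidEndRingEquivInt (Kum N (p ^ n)) (aeval s k) := fun s k =>
      aeval_algHom_apply ((addMonoidEndRingEquivInt (Kum N (p ^ n))).toRingHom.toIntAlgHom) s k
    rw [e, e, hff']
  obtain ⟨A', hA'⟩ := strongSupp_Kum (pow_pos hp.pos n) F h0
  refine hc n A' _ ?_
  rw [hlift] at hA'
  have e : ∀ (s : CuspForm.heckeAlgebra N 2 (↑S : Set ℕ)) (k : ℤ[X]),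
      ((aeval s k : CuspForm.heckeAlgebra N 2 (↑S : Set ℕ)) :
        Module.End ℂ (CuspForm (CongruenceSubgroup.Gamma0 N) 2))
        = aeval (s : Module.End ℂ (CuspForm (CongruenceSubgroup.Gamma0 N) 2)) k := fun s k =>
    (aeval_algHom_apply (CuspForm.heckeAlgebra N 2 (↑S : Set ℕ)).val s k).symm
  rw [AddSubgroupClass.coe_sub, e, e]
  exact hA'

/-- **S34 from `Crux` and `Crux2`.** -/
theorem S34_of
    (hcrux : ∀ (N ℓ m : ℕ) [NeZero N], ℓ.Prime → ¬ ℓ ∣ N → ¬ ℓ ∣ m → Crux N ℓ m)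
    (hcrux2 : ∀ (M q m : ℕ) [NeZero M] [NeZero q], q.Prime → ¬ q ∣ M → ¬ q ∣ m → Crux2 M q m)
    {𝒪 : Type} [CommRing 𝒪] [IsDomain 𝒪] [IsDiscreteValuationRing 𝒪]
    [IsAdicComplete (maximalIdeal 𝒪) 𝒪] [Finite (ResidueField 𝒪)] [CharZero 𝒪]
    {p : ℕ} (hp : p.Prime) (hp𝒪 : (p : 𝒪) ∈ maximalIdeal 𝒪)
    {N : ℕ} [NeZero N] {S : Finset ℕ} (hpS : p ∈ S) (hNS : ∀ q : ℕ, q.Prime → q ∣ N → q ∈ S)
    {θ : CuspForm.heckeAlgebra N 2 (↑S : Set ℕ) →+* ResidueField 𝒪}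
    {T : Type} [CommRing T] [IsLocalRing T] [IsNoetherianRing T]
    [IsAdicComplete (maximalIdeal T) T] [Algebra 𝒪 T] [IsLocalHom (algebraMap 𝒪 T)]
    [Module.Finite 𝒪 T] [Module.Free 𝒪 T]
    (H : CuspForm.HeckeGaloisRepDatum N (↑S : Set ℕ) 𝒪 θ T)
    (q : ℕ) (hq : q.Prime) (hqp : q ≠ p) (hqN : q ∣ N) (hq2 : ¬ q ^ 2 ∣ N) :
    H.ρ.IsUnipotentOnInertiaAt q := by
  classical
  obtain ⟨M, hM⟩ : ∃ M, N = M * q := ⟨N / q, (Nat.div_mul_cancel hqN).symm⟩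
  subst hM
  have hM0 : M ≠ 0 := fun h => NeZero.ne (M * q) (by rw [h, zero_mul])
  have : NeZero M := ⟨hM0⟩
  have : NeZero q := ⟨hq.ne_zero⟩
  have hqM : ¬ q ∣ M := fun h => hq2 (by rw [pow_two]; exact Nat.mul_dvd_mul_right h q)
  obtain ⟨c, hc⟩ := faith_heckeEndNat (M * q) hp S
  obtain ⟨q', hq'S, hq'⟩ : ∃ q', q' ∉ S ∧ q'.Prime := by
    obtain ⟨q', h1, h2⟩ := Nat.exists_infinite_primes (S.sup id + 1)
    exact ⟨q', fun h => by have := Finset.le_sup (f := id) h; simp only [id] at this; omega, h2⟩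
  have hN : ∀ ℓ : ℕ, ℓ.Prime → ℓ ∉ S → ¬ ℓ ∣ M * q := fun ℓ hℓ hℓS h => hℓS (hNS ℓ hℓ h)
  have hS' : ∀ ℓ : ℕ, ℓ ∉ S → ℓ ∉ (↑S : Set ℕ) := fun ℓ h => by simpa using h
  let a : ℕ → T := fun ℓ =>
    if h : ℓ.Prime ∧ ℓ ∉ S then H.π (CuspForm.heckeAlgebra.T h.1 (hN ℓ h.1 h.2) (hS' ℓ h.2)) else 0
  have ha : ∀ (ℓ : ℕ) (hℓ : ℓ.Prime) (hℓS : ℓ ∉ S),
      a ℓ = H.π (CuspForm.heckeAlgebra.T hℓ (hN ℓ hℓ hℓS) (hS' ℓ hℓS)) := by
    intro ℓ hℓ hℓS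
    exact dif_pos ⟨hℓ, hℓS⟩
  have hpT : (p : T) ∈ maximalIdeal T := by
    have h1 : (p : T) = algebraMap 𝒪 T (p : 𝒪) := by rw [map_natCast]
    rw [h1]
    exact map_nonunit (algebraMap 𝒪 T) _ hp𝒪
  refine isUnipotentOnInertiaAt_of_tests H.ρ hp S hpS a ?_
    (Ideal.iInf_pow_eq_bot_of_isLocalRing _ Ideal.IsPrime.ne_top') hpT q hq hqp ?_
  · intro ℓ hℓ hℓS A hA φ hφ
    rw [ha ℓ hℓ hℓS]
    exact H.charpoly_frob ℓ hℓ (hN ℓ hℓ hℓS) (hS' ℓ hℓS) A hA φ hφ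
  · intro k
    have hqpn : ¬ q ∣ p ^ (k + c) := fun h =>
      hqp ((Nat.prime_dvd_prime_iff_eq hq hp).mp (hq.dvd_of_dvd_pow h))
    refine ⟨k + c, q', kumTest hp hpS hNS q' (k + c) hq' hq'S (fun ℓ hℓ h =>
      hcrux (M * q) ℓ (p ^ (k + c)) hℓ (fun h' => h (Dvd.dvd.mul_right h' _))
        (fun h' => h (Dvd.dvd.mul_left h' _))), Nat.le_add_right k c, ?_, ?_⟩
    · intro P hP σ hσ x'
      obtain ⟨x, rfl⟩ : ∃ x : Kum (M * q) (p ^ (k + c)), x = x' := ⟨x', rfl⟩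
      have h1 := core34 hq hqM hqpn (hcrux2 M q (p ^ (k + c)) hq hqM hqpn) P hP σ σ hσ hσ x
      show galKum (M * q) (p ^ (k + c)) σ (galKum (M * q) (p ^ (k + c)) σ x)
        - (2 : ℤ) • galKum (M * q) (p ^ (k + c)) σ x + x = 0
      rw [map_sub] at h1
      rw [two_zsmul]
      have h2 : galKum (M * q) (p ^ (k + c)) σ (galKum (M * q) (p ^ (k + c)) σ x)
          - (galKum (M * q) (p ^ (k + c)) σ x + galKum (M * q) (p ^ (k + c)) σ x) + x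
          = (galKum (M * q) (p ^ (k + c)) σ (galKum (M * q) (p ^ (k + c)) σ x)
            - galKum (M * q) (p ^ (k + c)) σ x) - (galKum (M * q) (p ^ (k + c)) σ x - x) := by abel
      rw [h2, h1, sub_self]
    · intro ℓ ℓ' hℓ hℓS hℓ' hℓS' f f' hff
      obtain ⟨z, hz⟩ := hc (k + c) ℓ ℓ' hℓ (hN ℓ hℓ hℓS) (hS' ℓ hℓS) hℓ' (hN ℓ' hℓ' hℓS')
        (hS' ℓ' hℓS') f f' hff
      have e : ∀ (s : CuspForm.heckeAlgebra (M * q) 2 (↑S : Set ℕ)) (g : ℤ[X]),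
          H.π (aeval s g) = aeval (H.π s) g := by
        intro s g
        exact (aeval_algHom_apply (H.π.toIntAlgHom) s g).symm
      have h1 := congrArg H.π hz
      rw [map_sub, e, e, ← ha ℓ hℓ hℓS, ← ha ℓ' hℓ' hℓS', map_nsmul, Nat.add_sub_cancel] at h1
      rw [h1, nsmul_eq_mul, Nat.cast_pow]
      exact Ideal.mul_mem_right _ _ (Ideal.pow_mem_pow hpT k)

end Fermat.Agent.SS
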