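import Fermat.Agent.SS.New.Defs
import Fermat.Agent.ES.B.ToD
import Fermat.Agent.S54.Frobenius

/-!
# SS/Top/Aux35 : auxiliary lemmas for S35

(A) Galois-equivariant additive maps between Kummer modules commute with the Hecke operators
`T_ℓ` (`ℓ ∤ N N' m`), because `T_ℓ = φ + ℓ φ⁻¹` for a Frobenius element `φ` at `ℓ`
(Eichler-Shimura relation `ES.eichlerShimura_Kum`, existence of `φ`: `S54.exists_frob`).
(IC), (INJ) two lemmas on ring homomorphisms from subrings of `ℂ` to integrally closed domains.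

PROOFS.
* `heckeKum_eq_frob` : `eichlerShimura_Kum` at `x = φ⁻¹ z` (`galKum_mul`, `galKum_one`).
* `hecke_comm_of_gal_comm` : `heckeKum_eq_frob` on both sides, `map_add`, `map_nsmul`, `hD`.
* `lift_comm` : `FreeAlgebra.induction` on `P` (for `grade0` use `map_zsmul`).
* `dvd_of_eq_mul_isIntegral` (IC) : `f ∈ ℤ[X]` monic, `f(z) = 0`; `F := Polynomial.scaleRoots f m` is
  monic with `F(m z) = 0` (`Polynomial.scaleRoots_aeval_eq_zero` / `scaleRoots_eval₂_eq_zero`), so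
  `aeval r F = 0` in `R` (coercion injective), so `aeval (ψ r) F = 0` in `O`; in `K = FractionRing O`,
  `u := ψ r / m` satisfies `aeval u f = 0` (`Polynomial.scaleRoots_eval₂_mul`, `(m : K) ≠ 0`), so `u` is
  integral over `O`, so `u ∈ O` (`IsIntegrallyClosed.isIntegral_iff` / `algebraMap_eq_of_integral`).
* `map_ne_zero_of_isIntegral` (INJ) : `minpoly ℤ x` has nonzero constant coefficient `c₀`
  (`minpoly.coeff_zero_ne_zero`), and `X ∣ minpoly - C c₀`: `x * s = - c₀` with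
  `s = aeval x (divX (minpoly ℤ x)) ∈ R`; apply `ψ`; `(c₀ : O) ≠ 0`.
-/

set_option autoImplicit false

open AlgebraicCurve ModularCurve

namespace Fermat.Agent.SS

open Fermat.Agent.ES Polynomial

section A

variable {N N' m : ℕ} [NeZero N] [NeZero N']

theorem heckeKum_eq_frob (hm : m ≠ 0) {ℓ : ℕ} [NeZero ℓ] (hℓ : ℓ.Prime) (hℓN : ¬ ℓ ∣ N)
    (hc : Crux N ℓ m) (A : ValuationSubring Qb) (hA : A.LiesOverPrime ℓ) (φ : GQ)
    (hφ : A.IsFrobeniusAt φ ℓ) (z : Kum N m) :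
    heckeKum N ℓ hℓ hℓN m z = galKum N m φ z + ℓ • galKum N m φ⁻¹ z := by
  have h := eichlerShimura_Kum hm hℓ hℓN hc A hA φ hφ (galKum N m φ⁻¹ z)
  rw [← galKum_mul φ φ⁻¹ z, mul_inv_cancel, galKum_one] at h
  have h2 : heckeKum N ℓ hℓ hℓN m z =
      galKum N m φ z + ℓ • galKum N m φ⁻¹ z -
        (galKum N m φ z - heckeKum N ℓ hℓ hℓN m z + ℓ • galKum N m φ⁻¹ z) := by abel
  rw [h2, h, sub_zero]

theorem hecke_comm_of_gal_comm (hm : m ≠ 0) (D : Kum N m →+ Kum N' m)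
    (hD : ∀ (σ : GQ) (x : Kum N m), D (galKum N m σ x) = galKum N' m σ (D x))
    {ℓ : ℕ} [NeZero ℓ] (hℓ : ℓ.Prime) (hℓN : ¬ ℓ ∣ N) (hℓN' : ¬ ℓ ∣ N')
    (hc : Crux N ℓ m) (hc' : Crux N' ℓ m) (x : Kum N m) :
    D (heckeKum N ℓ hℓ hℓN m x) = heckeKum N' ℓ hℓ hℓN' m (D x) := by
  obtain ⟨A, hA, φ, hφ⟩ := S54.exists_frob ℓ hℓ
  rw [heckeKum_eq_frob hm hℓ hℓN hc A hA φ hφ, heckeKum_eq_frob hm hℓ hℓN' hc' A hA φ hφ,
    map_add, map_nsmul, hD, hD]

theorem lift_comm (hm : m ≠ 0) (D : Kum N m →+ Kum N' m)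
    (hD : ∀ (σ : GQ) (x : Kum N m), D (galKum N m σ x) = galKum N' m σ (D x))
    (S : Finset ℕ) (hNS : ∀ q : ℕ, q.Prime → q ∣ N → q ∈ S)
    (hN'S : ∀ q : ℕ, q.Prime → q ∣ N' → q ∈ S)
    (hc : ∀ ℓ : GP S, Crux N ℓ.1 m) (hc' : ∀ ℓ : GP S, Crux N' ℓ.1 m)
    (P : FreeAlgebra ℤ (GP S)) (x : Kum N m) :
    D (FreeAlgebra.lift ℤ (fun ℓ : GP S => heckeT N m (ℓ.good hNS)) P x)
      = FreeAlgebra.lift ℤ (fun ℓ : GP S => heckeT N' m (ℓ.good hN'S)) P (D x) := by
  induction P using FreeAlgebra.induction generalizing x with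
  | grade0 r =>
    rw [AlgHom.commutes, AlgHom.commutes, Module.algebraMap_end_apply, Module.algebraMap_end_apply,
      map_zsmul]
  | grade1 ℓ =>
    rw [FreeAlgebra.lift_ι_apply, FreeAlgebra.lift_ι_apply, heckeT_apply, heckeT_apply]
    have : NeZero ℓ.1 := ⟨ℓ.2.1.ne_zero⟩
    exact hecke_comm_of_gal_comm hm D hD ℓ.2.1 _ _ (hc ℓ) (hc' ℓ) x
  | mul a b ha hb =>
    rw [map_mul, map_mul, Module.End.mul_apply, Module.End.mul_apply, ha, hb]
  | add a b ha hb =>
    rw [map_add, map_add, LinearMap.add_apply, LinearMap.add_apply, map_add, ha, hb]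

end A

section IC

variable {O : Type*} [CommRing O] [IsDomain O] [CharZero O]

/-- ring homomorphisms commute with the evaluation of integral polynomials. -/
theorem aux35_map_aeval {R S : Type*} [CommRing R] [CommRing S] [Algebra ℤ R] [Algebra ℤ S]
    (g : R →+* S) (x : R) (p : ℤ[X]) : g (aeval x p) = aeval (g x) p := by
  rw [Polynomial.aeval_def, Polynomial.aeval_def, Polynomial.hom_eval₂]
  congr 1
  exact RingHom.ext_int _ _

/-- (IC) -/
theorem dvd_of_eq_mul_isIntegral [IsIntegrallyClosed O] (R : Subring ℂ) (ψ : R →+* O) (r : R)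
    (m : ℕ) (hm : m ≠ 0) (z : ℂ) (hz : IsIntegral ℤ z) (hr : (r : ℂ) = (m : ℂ) * z) :
    (m : O) ∣ ψ r := by
  obtain ⟨f, hf, hfz⟩ := hz
  have hfz' : aeval z f = 0 := hfz
  have h1 : aeval (r : ℂ) (scaleRoots f (m : ℤ)) = 0 := by
    have := Polynomial.scaleRoots_aeval_eq_zero (r := (m : ℤ)) hfz'
    rw [hr]
    simpa using this
  have h2 : aeval r (scaleRoots f (m : ℤ)) = 0 := by
    apply Subtype.ext
    have := aux35_map_aeval R.subtype r (scaleRoots f (m : ℤ))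
    rw [Subring.subtype_apply, Subring.subtype_apply, h1] at this
    exact this
  have h3 : aeval (ψ r) (scaleRoots f (m : ℤ)) = 0 := by
    rw [← aux35_map_aeval ψ, h2, map_zero]
  set K := FractionRing O
  have hmK : (m : K) ≠ 0 := by exact_mod_cast hm
  set u : K := algebraMap O K (ψ r) / (m : K) with hu
  have hmu : (m : K) * u = algebraMap O K (ψ r) := by
    rw [hu, mul_div_cancel₀ _ hmK]
  have h4 : aeval u f = 0 := by
    have h5 : aeval (algebraMap O K (ψ r)) (scaleRoots f (m : ℤ)) = 0 := by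
      rw [← aux35_map_aeval (algebraMap O K), h3, map_zero]
    rw [← hmu, Polynomial.aeval_def] at h5
    have h6 := Polynomial.scaleRoots_eval₂_mul (p := f) (algebraMap ℤ K) u (m : ℤ)
    have h7 : algebraMap ℤ K (m : ℤ) = (m : K) := by simp
    rw [h7, h5] at h6
    rcases mul_eq_zero.1 h6.symm with h | h
    · exact absurd h (pow_ne_zero _ hmK)
    · exact h
  have hZ : IsIntegral ℤ u := ⟨f, hf, h4⟩
  have hint : IsIntegral O u := hZ.tower_top
  obtain ⟨y, hy⟩ := IsIntegrallyClosed.isIntegral_iff.1 hint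
  refine ⟨y, IsFractionRing.injective O K ?_⟩
  rw [map_mul, hy, ← hmu, map_natCast]

/-- (INJ) -/
theorem map_ne_zero_of_isIntegral (R : Subring ℂ) (ψ : R →+* O) (x : R) (hx : x ≠ 0)
    (hint : IsIntegral ℤ (x : ℂ)) : ψ x ≠ 0 := by
  intro h0
  have hx' : (x : ℂ) ≠ 0 := fun h => hx (Subtype.ext h)
  have hc : coeff (minpoly ℤ (x : ℂ)) 0 ≠ 0 := by
    have hQ : IsIntegral ℚ (x : ℂ) := hint.tower_top
    have h1 := minpoly.coeff_zero_ne_zero hQ hx'
    rw [minpoly.isIntegrallyClosed_eq_field_fractions' ℚ hint, Polynomial.coeff_map] at h1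
    intro h
    rw [h, map_zero] at h1
    exact h1 rfl
  have h1 : aeval (x : ℂ) (minpoly ℤ (x : ℂ)) = 0 := minpoly.aeval _ _
  have h2 : aeval x (minpoly ℤ (x : ℂ)) = 0 := by
    apply Subtype.ext
    have := aux35_map_aeval R.subtype x (minpoly ℤ (x : ℂ))
    rw [Subring.subtype_apply, Subring.subtype_apply, h1] at this
    exact this
  have h3 : aeval (ψ x) (minpoly ℤ (x : ℂ)) = 0 := by
    rw [← aux35_map_aeval ψ, h2, map_zero]
  rw [h0, ← Polynomial.divX_mul_X_add (minpoly ℤ (x : ℂ)), map_add, map_mul, aeval_X, mul_zero,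
    zero_add, aeval_C] at h3
  apply hc
  have h4 : ((coeff (minpoly ℤ (x : ℂ)) 0 : ℤ) : O) = 0 := by simpa using h3
  exact_mod_cast h4

end IC

end Fermat.Agent.SS
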