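import Fermat.Agent.SS.New.Defs
import Fermat.Agent.SS.Top.Aux35
import Fermat.Agent.ES.Glue.Supp
import Fermat.Agent.ES.D.Eigen

/-!
# SS/Top/Eval35 : evaluation of Hecke polynomials at an eigenform and in a coefficient ring
-/

set_option autoImplicit false

namespace Fermat.Agent.SS

open Fermat.Agent.ES Polynomial CuspForm ModularFormClass

/-- change of variables in a free algebra -/
theorem lift_lift_ι {I J B : Type*} [Ring B] [Algebra ℤ B] (f : J → B) (g : I → J)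
    (F : FreeAlgebra ℤ I) :
    FreeAlgebra.lift ℤ f (FreeAlgebra.lift ℤ (fun i => FreeAlgebra.ι ℤ (g i)) F)
      = FreeAlgebra.lift ℤ (fun i => f (g i)) F := by
  have : (FreeAlgebra.lift ℤ f).comp (FreeAlgebra.lift ℤ (fun i => FreeAlgebra.ι ℤ (g i)))
      = FreeAlgebra.lift ℤ (fun i => f (g i)) := by
    apply FreeAlgebra.hom_ext
    funext x
    simp
  exact DFunLike.congr_fun this F

/-- ring homomorphisms commute with evaluation -/
theorem map_lift {I B C : Type*} [Ring B] [Ring C] (φ : B →+* C) (f : I → B)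
    (F : FreeAlgebra ℤ I) :
    φ (FreeAlgebra.lift ℤ f F) = FreeAlgebra.lift ℤ (fun i => φ (f i)) F := by
  have : (φ.toIntAlgHom).comp (FreeAlgebra.lift ℤ f) = FreeAlgebra.lift ℤ (fun i => φ (f i)) := by
    apply FreeAlgebra.hom_ext
    funext x
    simp
  exact DFunLike.congr_fun this F

theorem lift_aeval_ι {I B : Type*} [Ring B] [Algebra ℤ B] (f : I → B) (i : I) (k : ℤ[X]) :
    FreeAlgebra.lift ℤ f (aeval (FreeAlgebra.ι ℤ i) k) = aeval (f i) k := by
  rw [← aeval_algHom_apply, FreeAlgebra.lift_ι_apply]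

variable {N : ℕ} [NeZero N] {g : CuspForm (CongruenceSubgroup.Gamma0 N) 2}

/-- `supp` evaluated at an eigenform. -/
theorem supp_eigen_complex {m : ℕ} (hm : 0 < m) (hg : g.IsNormalizedEigenform)
    (F : FreeAlgebra ℤ (D.GoodPrime N)) (hF : FreeAlgebra.lift ℤ (heckeT N m) F = 0) :
    ∃ z : ℂ, IsIntegral ℤ z ∧
      FreeAlgebra.lift ℤ (fun ℓ : D.GoodPrime N => qCoeff g ℓ.1) F = (m : ℂ) * z := by
  obtain ⟨Q, hQ, hPQ⟩ := Glue.suppProp hm F hF
  have hp0 : (m : ℂ) ≠ 0 := Nat.cast_ne_zero.mpr hm.ne'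
  set e : integralClosure ℤ ℂ := FreeAlgebra.lift ℤ (D.eigenvalue hg) F with he
  have h1 : Q g = ((e : ℂ) / m) • g := by
    have h2 := D.lift_heckeS2_apply hg F
    rw [hPQ, ← he] at h2
    have h3 : ((m : ℤ) • Q) g = (m : ℂ) • Q g := by
      rw [LinearMap.smul_apply]
      simp [← Nat.cast_smul_eq_nsmul ℂ]
    rw [h3] at h2
    rw [div_eq_inv_mul, mul_smul, ← h2, smul_smul, inv_mul_cancel₀ hp0, one_smul]
  have hc : IsIntegral ℤ ((e : ℂ) / m) :=
    D.isIntegral_of_eigen Q hQ (D.ne_zero_of_normalized hg) h1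
  refine ⟨(e : ℂ) / m, hc, ?_⟩
  have h5 : FreeAlgebra.lift ℤ (fun ℓ : D.GoodPrime N => qCoeff g ℓ.1) F = (e : ℂ) := by
    rw [he]
    exact (map_lift (integralClosure ℤ ℂ).val.toRingHom (D.eigenvalue hg) F).symm
  rw [h5]
  field_simp

theorem isIntegral_lift_qCoeff (hg : g.IsNormalizedEigenform)
    (F : FreeAlgebra ℤ (D.GoodPrime N)) :
    IsIntegral ℤ (FreeAlgebra.lift ℤ (fun ℓ : D.GoodPrime N => qCoeff g ℓ.1) F) := by
  have h5 : FreeAlgebra.lift ℤ (fun ℓ : D.GoodPrime N => qCoeff g ℓ.1) F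
      = ((FreeAlgebra.lift ℤ (D.eigenvalue hg) F : integralClosure ℤ ℂ) : ℂ) :=
    (map_lift (integralClosure ℤ ℂ).val.toRingHom (D.eigenvalue hg) F).symm
  rw [h5]
  exact (FreeAlgebra.lift ℤ (D.eigenvalue hg) F).2

end Fermat.Agent.SS
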