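import Fermat.Agent.SS.Top.Ident35
import Fermat.Agent.SS.Top.Eval35
import Fermat.Agent.SS.New.Main
import Fermat.Agent.ES.Glue.Surj
import Fermat.Agent.S31.Glue
import Fermat.Agent.S31.Transfer

/-!
# SS/Top/S35Core : the characteristic polynomial of Frobenius at `q ∥ N` for a newform
-/

set_option autoImplicit false

namespace Fermat.Agent.SS

open Polynomial IsLocalRing Fermat.Agent.ES CuspForm ModularFormClass

theorem charpoly_frob_of_newform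
    (hcrux : ∀ (N ℓ m : ℕ) [NeZero N], ℓ.Prime → ¬ ℓ ∣ N → ¬ ℓ ∣ m → Crux N ℓ m)
    (hcrux2 : ∀ (M q m : ℕ) [NeZero M] [NeZero q], q.Prime → ¬ q ∣ M → ¬ q ∣ m → Crux2 M q m)
    {M q : ℕ} [NeZero M] [NeZero q] [NeZero (M * q)] (hq : q.Prime) (hqM : ¬ q ∣ M)
    {g : CuspForm (CongruenceSubgroup.Gamma0 (M * q)) 2} (hg : g.IsNewform)
    {p : ℕ} (hp : p.Prime) (hqp : q ≠ p) (S : Finset ℕ) (hpS : p ∈ S)
    (hNS : ∀ r : ℕ, r.Prime → r ∣ M * q → r ∈ S)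
    {O : Type} [CommRing O] [IsDomain O] [IsDiscreteValuationRing O] [CharZero O]
    (hpO : (p : O) ∈ maximalIdeal O)
    (R : Subring ℂ) (ψ : R →+* O) (haR : ∀ ℓ : GP S, qCoeff g ℓ.1 ∈ R)
    (ρ : GaloisRepAdic O)
    (hρ : ∀ (ℓ : GP S) (A : ValuationSubring Qb), A.LiesOverPrime ℓ.1 →
      ∀ σ : GQ, A.IsFrobeniusAt σ ℓ.1 →
        LinearMap.charpoly (ρ.ρ σ) = X ^ 2 - C (ψ ⟨qCoeff g ℓ.1, haR ℓ⟩) * X + C ((ℓ.1 : ℕ) : O))
    (A : ValuationSubring Qb) (hA : A.LiesOverPrime q) (σ : GQ) (hσ : A.IsFrobeniusAt σ q) :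
    LinearMap.charpoly (ρ.ρ σ) = X ^ 2 - C ((q : O) + 1) * X + C (q : O) ∨
      LinearMap.charpoly (ρ.ρ σ) = X ^ 2 + C ((q : O) + 1) * X + C (q : O) := by
  classical
  have hMS : ∀ r : ℕ, r.Prime → r ∣ M → r ∈ S := fun r hr h => hNS r hr (Dvd.dvd.mul_right h q)
  have hMne : M ≠ M * q := by
    intro h
    have h1 : M * 1 = M * q := by rw [mul_one]; exact h
    exact hq.one_lt.ne (Nat.eq_of_mul_eq_mul_left (Nat.pos_of_ne_zero (NeZero.ne M)) h1)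
  obtain ⟨P, hP0, hPa⟩ := exists_newP hcrux hg S M (dvd_mul_right M q) hMne hMS
  obtain ⟨q', hq'S, hq'⟩ : ∃ q', q' ∉ S ∧ q'.Prime := by
    obtain ⟨q', h1, h2⟩ := Nat.exists_infinite_primes (S.sup id + 1)
    exact ⟨q', fun h => by have := Finset.le_sup (f := id) h; simp only [id] at this; omega, h2⟩
  -- the three evaluations
  set aC : GP S → ℂ := fun ℓ => qCoeff g ℓ.1 with haC
  set aR : GP S → R := fun ℓ => ⟨qCoeff g ℓ.1, haR ℓ⟩ with haRdef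
  set b : GP S → O := fun ℓ => ψ (aR ℓ) with hb
  have evC : ∀ F : FreeAlgebra ℤ (GP S),
      ((FreeAlgebra.lift ℤ aR F : R) : ℂ) = FreeAlgebra.lift ℤ aC F := fun F =>
    map_lift R.subtype aR F
  have evO : ∀ F : FreeAlgebra ℤ (GP S),
      ψ (FreeAlgebra.lift ℤ aR F) = FreeAlgebra.lift ℤ b F := fun F => map_lift ψ aR F
  have evG : ∀ F : FreeAlgebra ℤ (GP S), FreeAlgebra.lift ℤ aC F
      = FreeAlgebra.lift ℤ (fun ℓ : D.GoodPrime (M * q) => qCoeff g ℓ.1)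
        (FreeAlgebra.lift ℤ (fun ℓ : GP S => FreeAlgebra.ι ℤ (ℓ.good hNS)) F) := fun F =>
    (lift_lift_ι (fun ℓ : D.GoodPrime (M * q) => qCoeff g ℓ.1) (fun ℓ : GP S => ℓ.good hNS) F).symm
  set cP : O := FreeAlgebra.lift ℤ b P with hcP
  have hcP0 : cP ≠ 0 := by
    rw [hcP, ← evO]
    refine map_ne_zero_of_isIntegral R ψ _ ?_ ?_
    · intro h0
      apply hPa
      rw [← evC, h0]
      rfl
    · rw [evC, evG]
      exact isIntegral_lift_qCoeff hg.1 _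
  -- the coefficients as a function on `ℕ`
  let a : ℕ → O := fun ℓ => if h : ℓ.Prime ∧ ℓ ∉ S then b ⟨ℓ, h⟩ else 0
  have ha : ∀ (ℓ : ℕ) (hℓ : ℓ.Prime) (hℓS : ℓ ∉ S), a ℓ = b ⟨ℓ, hℓ, hℓS⟩ := by
    intro ℓ hℓ hℓS
    exact dif_pos ⟨hℓ, hℓS⟩
  have hchar : ∀ ℓ : ℕ, ℓ.Prime → ℓ ∉ S → ∀ A : ValuationSubring Qb, A.LiesOverPrime ℓ →
      ∀ φ : GQ, A.IsFrobeniusAt φ ℓ →
        LinearMap.charpoly (ρ.ρ φ) = X ^ 2 - C (a ℓ) * X + C ((ℓ : ℕ) : O) := by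
    intro ℓ hℓ hℓS A hA φ hφ
    rw [ha ℓ hℓ hℓS]
    exact hρ ⟨ℓ, hℓ, hℓS⟩ A hA φ hφ
  set τ := LinearMap.trace O ρ.V (ρ.ρ σ) with hτ
  set δ := LinearMap.det (ρ.ρ σ) with hδ
  have key : ∀ k : ℕ, (τ * τ - ((q : O) + 1) ^ 2) ^ 2 * cP ∈ maximalIdeal O ^ k ∧
      δ - (q : O) ∈ maximalIdeal O ^ k := by
    intro k
    have hpk : p ^ k ≠ 0 := pow_ne_zero _ hp.ne_zero
    have hpk0 : 0 < p ^ k := pow_pos hp.pos k
    have : NeZero (p ^ k) := ⟨hpk⟩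
    have hqpk : ¬ q ∣ p ^ k := fun h =>
      hqp ((Nat.prime_dvd_prime_iff_eq hq hp).mp (hq.dvd_of_dvd_pow h))
    have hSp : ∀ ℓ : GP S, ¬ ℓ.1 ∣ p ^ k := fun ℓ h =>
      ℓ.2.2 (((Nat.prime_dvd_prime_iff_eq ℓ.2.1 hp).mp (ℓ.2.1.dvd_of_dvd_pow h)) ▸ hpS)
    have hcN : ∀ ℓ : ℕ, ℓ.Prime → ¬ ℓ ∣ M * q * p ^ k → Crux (M * q) ℓ (p ^ k) := fun ℓ hℓ h =>
      hcrux (M * q) ℓ (p ^ k) hℓ (fun h' => h (Dvd.dvd.mul_right h' _))
        (fun h' => h (Dvd.dvd.mul_left h' _))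
    obtain ⟨ζ, hζ⟩ : ∃ ζ : Qb, IsPrimitiveRoot ζ (p ^ k) :=
      HasEnoughRootsOfUnity.exists_primitiveRoot Qb (p ^ k)
    have hζ1 := hζ.pow_eq_one
    obtain ⟨ℓ, j, hℓ, hℓS, hz, hM, ht, hd⟩ := S31.approx_det ρ hp S hpS a hchar
      (S31.kumTest hp hpS hNS q' k hq' hq'S hcN) k ζ hζ1 σ
    have hmod : ℓ ^ j ≡ q [MOD p ^ k] := by
      apply S31.modEq_of_pow_eq hpk hζ
      rw [← hz, S31.frob_apply_root A hq hA σ hσ hqpk hζ1]
    set ℓ' : GP S := ⟨ℓ, hℓ, hℓS⟩ with hℓ'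
    set dk : ℤ[X] := dickson 1 ((ℓ : ℕ) : ℤ) j with hdk
    -- the relation in `Module.End ℤ`
    have hM' : aeval (S31.heckeEndNat (M * q) (p ^ k) ℓ) dk
        = S31.galEnd (M * q) (p ^ k) σ
          + ((ℓ ^ j : ℕ) : AddMonoid.End (Kum (M * q) (p ^ k))) * S31.galEnd (M * q) (p ^ k) σ⁻¹ := hM
    rw [S31.natCast_end_eq_of_modEq Kum.nsmul_eq_zero hmod] at hM'
    set t : Module.End ℤ (Kum (M * q) (p ^ k)) := aeval (heckeT (M * q) (p ^ k) (ℓ'.good hNS)) dk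
      with htdef
    have htt : t = galRepZ (M * q) (p ^ k) σ
        + ((q : ℤ) : Module.End ℤ (Kum (M * q) (p ^ k))) * galRepZ (M * q) (p ^ k) σ⁻¹ := by
      have e : ∀ (s : AddMonoid.End (Kum (M * q) (p ^ k))) (f : ℤ[X]),
          aeval (addMonoidEndRingEquivInt (Kum (M * q) (p ^ k)) s) f
            = addMonoidEndRingEquivInt (Kum (M * q) (p ^ k)) (aeval s f) := fun s f =>
        aeval_algHom_apply ((addMonoidEndRingEquivInt (Kum (M * q) (p ^ k))).toRingHom.toIntAlgHom) s f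
      have e2 : heckeT (M * q) (p ^ k) (ℓ'.good hNS)
          = addMonoidEndRingEquivInt (Kum (M * q) (p ^ k)) (S31.heckeEndNat (M * q) (p ^ k) ℓ) :=
        (S31.equiv_heckeEndNat (M * q) (p ^ k) hℓ (ℓ'.good hNS).2.2).symm
      rw [htdef, e2, e, hM', map_add, map_mul, map_natCast]
      simp only [Int.cast_natCast]
      rfl
    -- the polynomial
    set F : FreeAlgebra ℤ (GP S) :=
      (aeval (FreeAlgebra.ι ℤ ℓ') dk * aeval (FreeAlgebra.ι ℤ ℓ') dk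
        - ((((q : ℤ) + 1) ^ 2 : ℤ) : FreeAlgebra ℤ (GP S))) ^ 2 * P with hF
    have hFev : ∀ {B : Type} [Ring B] [Algebra ℤ B] (f : GP S → B), FreeAlgebra.lift ℤ f F
        = (aeval (f ℓ') dk * aeval (f ℓ') dk - ((((q : ℤ) + 1) ^ 2 : ℤ) : B)) ^ 2
          * FreeAlgebra.lift ℤ f P := by
      intro B _ _ f
      rw [hF, map_mul, map_pow, map_sub, map_mul, lift_aeval_ι, map_intCast]
    have hPM : FreeAlgebra.lift ℤ (fun ℓ : GP S => heckeT M (p ^ k) (ℓ.good hMS)) P = 0 := by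
      rw [← lift_lift_ι (heckeT M (p ^ k)) (fun ℓ : GP S => ℓ.good hMS) P]
      refine Glue.cosupp_Kum hpk0 _ ?_
      rw [lift_lift_ι]
      exact hP0
    have hF0 : FreeAlgebra.lift ℤ (fun ℓ : GP S => heckeT (M * q) (p ^ k) (ℓ.good hNS)) F = 0 := by
      rw [hFev]
      exact ident35_hecke hpk hq hqM hqpk (hcrux2 M q (p ^ k) hq hqM hqpk) S hNS hMS
        (fun ℓ => hcrux (M * q) ℓ.1 (p ^ k) ℓ.2.1 (ℓ.good hNS).2.2 (hSp ℓ))
        (fun ℓ => hcrux M ℓ.1 (p ^ k) ℓ.2.1 (ℓ.good hMS).2.2 (hSp ℓ)) A hA σ hσ P hPM t htt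
    obtain ⟨z, hzint, hzF⟩ := supp_eigen_complex hpk0 hg.1
      (FreeAlgebra.lift ℤ (fun ℓ : GP S => FreeAlgebra.ι ℤ (ℓ.good hNS)) F)
      (by rw [lift_lift_ι]; exact hF0)
    rw [← evG] at hzF
    have hdvd := dvd_of_eq_mul_isIntegral R ψ (FreeAlgebra.lift ℤ aR F) (p ^ k) hpk z hzint
      (by rw [evC]; exact hzF)
    rw [evO, hFev, ← hcP] at hdvd
    set Db : O := aeval (b ℓ') dk with hDb
    have hpkO : ((p ^ k : ℕ) : O) ∈ maximalIdeal O ^ k := by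
      rw [Nat.cast_pow]
      exact Ideal.pow_mem_pow hpO k
    have hcast : ((((q : ℤ) + 1) ^ 2 : ℤ) : O) = ((q : O) + 1) ^ 2 := by push_cast; ring
    rw [hcast] at hdvd
    have e1 : (Db * Db - ((q : O) + 1) ^ 2) ^ 2 * cP ∈ maximalIdeal O ^ k := by
      obtain ⟨u, hu⟩ := hdvd
      rw [hu]
      exact Ideal.mul_mem_right _ _ hpkO
    have ht' : τ - Db ∈ maximalIdeal O ^ k := by
      have := ht
      rw [ha ℓ hℓ hℓS] at this
      exact this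
    constructor
    · have e2 : (τ * τ - ((q : O) + 1) ^ 2) ^ 2 * cP
          = (τ - Db) * ((τ + Db) * (τ * τ + Db * Db - 2 * ((q : O) + 1) ^ 2) * cP)
            + (Db * Db - ((q : O) + 1) ^ 2) ^ 2 * cP := by ring
      rw [e2]
      exact Ideal.add_mem _ (Ideal.mul_mem_right _ _ ht') e1
    · obtain ⟨u, hu⟩ := (Nat.modEq_iff_dvd.mp hmod)
      have h3 : (q : O) - ((ℓ ^ j : ℕ) : O) = ((p ^ k : ℕ) : O) * (u : O) := by
        have := congrArg (Int.cast : ℤ → O) hu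
        push_cast at this
        push_cast
        exact this
      have e2 : δ - (q : O) = (δ - ((ℓ ^ j : ℕ) : O)) - ((q : O) - ((ℓ ^ j : ℕ) : O)) := by ring
      rw [e2, h3]
      exact Ideal.sub_mem _ hd (Ideal.mul_mem_right _ _ hpkO)
  have hsep : ⨅ n : ℕ, maximalIdeal O ^ n = ⊥ :=
    Ideal.iInf_pow_eq_bot_of_isLocalRing _ Ideal.IsPrime.ne_top'
  have h1 : (τ * τ - ((q : O) + 1) ^ 2) ^ 2 * cP = 0 := by
    rw [← Ideal.mem_bot, ← hsep, Ideal.mem_iInf]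
    exact fun k => (key k).1
  have h2 : δ = (q : O) := by
    rw [← sub_eq_zero, ← Ideal.mem_bot, ← hsep, Ideal.mem_iInf]
    exact fun k => (key k).2
  have h3 : τ * τ - ((q : O) + 1) ^ 2 = 0 := by
    rcases mul_eq_zero.mp h1 with h | h
    · exact pow_eq_zero_iff (two_ne_zero) |>.mp h
    · exact absurd h hcP0
  have h4 : (τ - ((q : O) + 1)) * (τ + ((q : O) + 1)) = 0 := by
    rw [← h3]; ring
  rw [FD.charpoly_rank_two ρ.finrank_eq, ← hτ, ← hδ, h2]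
  rcases mul_eq_zero.mp h4 with h | h
  · left
    rw [sub_eq_zero.mp h]
  · right
    rw [eq_neg_of_add_eq_zero_left h, C_neg]
    ring

end Fermat.Agent.SS
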