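import Fermat.Statements.S35
import Fermat.Agent.SS.Top.S35Core
import Fermat.Agent.S30.OfCrux

/-!
# SS/Top/S35Of : S35 from `Crux` and `Crux2`
-/

set_option autoImplicit false

namespace Fermat.Agent.SS

open Polynomial Fermat.Agent.ES CuspForm

/-- **S35 from `Crux` and `Crux2`.** -/
theorem S35_of
    (hcrux : ∀ (N ℓ m : ℕ) [NeZero N], ℓ.Prime → ¬ ℓ ∣ N → ¬ ℓ ∣ m → Crux N ℓ m)
    (hcrux2 : ∀ (M q m : ℕ) [NeZero M] [NeZero q], q.Prime → ¬ q ∣ M → ¬ q ∣ m → Crux2 M q m)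
    {M : ℕ} [NeZero M] {g : CuspForm (CongruenceSubgroup.Gamma0 M) 2} (hg : g.IsNewform)
    (lam : ℕ) [Fact lam.Prime]
    (S : Finset ℕ)
    (O' : Type) [CommRing O'] [IsDomain O'] [IsDiscreteValuationRing O']
    [IsAdicComplete (IsLocalRing.maximalIdeal O') O'] [Finite (IsLocalRing.ResidueField O')]
    [CharZero O'] (hlamO' : (lam : O') ∈ IsLocalRing.maximalIdeal O')
    (chig : CuspForm.heckeAlgebra M 2 (↑S : Set ℕ) →+* ℂ)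
    (hchig : ∀ (ℓ : ℕ) (hℓ : ℓ.Prime) (hℓM : ¬ ℓ ∣ M) (hℓS : ℓ ∉ (↑S : Set ℕ)),
      chig (CuspForm.heckeAlgebra.T hℓ hℓM hℓS) = ModularFormClass.qCoeff g ℓ)
    (iota : chig.range →+* O')
    (hlamS : lam ∈ S) (hMS : ∀ q : ℕ, q.Prime → q ∣ M → q ∈ S)
    :
    ∃ (O'' : Type) (_ : CommRing O'') (_ : IsDomain O'') (_ : IsDiscreteValuationRing O'')
      (_ : IsAdicComplete (IsLocalRing.maximalIdeal O'') O'') (_ : Finite (IsLocalRing.ResidueField O''))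
      (_ : CharZero O'') (_ : Algebra O' O'') (_ : Module.Finite O' O'') (_ : IsLocalHom (algebraMap O' O'')),
      Function.Injective (algebraMap O' O'') ∧
      ∃ ρ : GaloisRepAdic O'',
        (∀ (ℓ : ℕ) (hℓ : ℓ.Prime) (hℓM : ¬ ℓ ∣ M) (hℓS : ℓ ∉ (↑S : Set ℕ)),
          ∀ A : ValuationSubring (AlgebraicClosure ℚ), A.LiesOverPrime ℓ →
            ∀ σ : AlgebraicClosure ℚ ≃ₐ[ℚ] AlgebraicClosure ℚ, A.IsFrobeniusAt σ ℓ →
              LinearMap.charpoly (ρ.ρ σ) =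
                X ^ 2 - C (algebraMap O' O'' ((iota.comp chig.rangeRestrict) (CuspForm.heckeAlgebra.T hℓ hℓM hℓS))) * X
                  + C ((ℓ : O''))) ∧
        (∀ q : ℕ, q.Prime → q ≠ lam → q ∣ M → ¬ q ^ 2 ∣ M →
          ∀ A : ValuationSubring (AlgebraicClosure ℚ), A.LiesOverPrime q →
            ∀ σ : AlgebraicClosure ℚ ≃ₐ[ℚ] AlgebraicClosure ℚ, A.IsFrobeniusAt σ q →
              LinearMap.charpoly (ρ.ρ σ) = X ^ 2 - C ((q : O'') + 1) * X + C ((q : O'')) ∨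
              LinearMap.charpoly (ρ.ρ σ) = X ^ 2 + C ((q : O'') + 1) * X + C ((q : O''))) := by
  obtain ⟨O'', i1, i2, i3, i4, i5, i6, i7, i8, i9, hinj, ρ, hρ, -⟩ :=
    S30.of_crux hcrux lam M S hlamS hMS O' hlamO' (iota.comp chig.rangeRestrict)
  refine ⟨O'', i1, i2, i3, i4, i5, i6, i7, i8, i9, hinj, ρ, hρ, ?_⟩
  intro q hq hqlam hqM hq2 A hA σ hσ
  have hlam : lam.Prime := Fact.out
  have hlamO'' : (lam : O'') ∈ IsLocalRing.maximalIdeal O'' := by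
    have h1 : (lam : O'') = algebraMap O' O'' (lam : O') := by rw [map_natCast]
    rw [h1]
    exact map_nonunit (algebraMap O' O'') _ hlamO'
  obtain ⟨M₀, hM₀⟩ : ∃ M₀, M = M₀ * q := ⟨M / q, (Nat.div_mul_cancel hqM).symm⟩
  subst hM₀
  have hM0 : M₀ ≠ 0 := fun h => NeZero.ne (M₀ * q) (by rw [h, zero_mul])
  have : NeZero M₀ := ⟨hM0⟩
  have : NeZero q := ⟨hq.ne_zero⟩
  have hqM₀ : ¬ q ∣ M₀ := fun h => hq2 (by rw [pow_two]; exact Nat.mul_dvd_mul_right h q)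
  have haR : ∀ ℓ : GP S, ModularFormClass.qCoeff g ℓ.1 ∈ chig.range := fun ℓ =>
    ⟨CuspForm.heckeAlgebra.T ℓ.2.1 (ℓ.good hMS).2.2 ℓ.notMem_coe,
      hchig ℓ.1 ℓ.2.1 (ℓ.good hMS).2.2 ℓ.notMem_coe⟩
  refine charpoly_frob_of_newform hcrux hcrux2 hq hqM₀ hg hlam hqlam S hlamS hMS hlamO''
    chig.range ((algebraMap O' O'').comp iota) haR ρ ?_ A hA σ hσ
  intro ℓ A' hA' σ' hσ'
  rw [hρ ℓ.1 ℓ.2.1 (ℓ.good hMS).2.2 ℓ.notMem_coe A' hA' σ' hσ']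
  have e : chig.rangeRestrict (CuspForm.heckeAlgebra.T ℓ.2.1 (ℓ.good hMS).2.2 ℓ.notMem_coe)
      = ⟨ModularFormClass.qCoeff g ℓ.1, haR ℓ⟩ :=
    Subtype.ext (hchig ℓ.1 ℓ.2.1 (ℓ.good hMS).2.2 ℓ.notMem_coe)
  rw [RingHom.comp_apply, e]
  rfl

end Fermat.Agent.SS
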