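import Fermat.Agent.SS.Formal.Core35
import Fermat.Agent.SS.Top.Aux35

/-!
# SS/Top/Ident35 : the operator identity on `Kum (M*q) m` used for S35

For `y ∈ Kum (M*q) m` with `Nm y = 0 = Nm (w y)` and a Frobenius element `φ` at `q`:
`(φ² - 1)(φ² - q²)² y = 0`, hence `(t² - (q+1)²)² y = 0` for `t = φ + q φ⁻¹`.
-/

set_option autoImplicit false

open AlgebraicCurve ModularCurve

namespace Fermat.Agent.SS

open Fermat.Agent.ES Polynomial

section Alg

variable {V : Type*} [AddCommGroup V]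

theorem commute_aeval {a b : Module.End ℤ V} (h : Commute a b) (f : ℤ[X]) :
    Commute a (aeval b f) := by
  induction f using Polynomial.induction_on' with
  | add f g hf hg => rw [map_add]; exact hf.add_right hg
  | monomial n c =>
    rw [aeval_monomial]
    exact (show Commute a (algebraMap ℤ (Module.End ℤ V) c) from
      (Algebra.commutes c a).symm).mul_right (h.pow_right n)

theorem aeval_sq_sub (Φ : Module.End ℤ V) (c : ℤ) (z : V) :
    aeval Φ (X ^ 2 - C c : ℤ[X]) z = Φ (Φ z) - c • z := by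
  simp [pow_two]

/-- Pure algebra: from `L (W y + Φ y) = 0`, `L = (Φ² - c)²`, `W² = 1`, `W Φ = Φ W`, to
`(Φ² - 1) L y = 0`. -/
theorem aeval_eq_zero_of_invol (Φ W : Module.End ℤ V) (hW : W * W = 1) (hc : Commute W Φ) (c : ℤ)
    (y : V) (h : aeval Φ ((X ^ 2 - C c) ^ 2 : ℤ[X]) (W y + Φ y) = 0) :
    aeval Φ ((X ^ 2 - 1) * (X ^ 2 - C c) ^ 2 : ℤ[X]) y = 0 := by
  set L := aeval Φ ((X ^ 2 - C c) ^ 2 : ℤ[X]) with hL
  have hWL : Commute W L := commute_aeval hc _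
  have hΦL : Commute Φ L := commute_aeval (Commute.refl Φ) _
  set u := L y with hu
  have h1 : W u + Φ u = 0 := by
    rw [map_add] at h
    have e1 : L (W y) = W u := by
      have := congrArg (fun F : Module.End ℤ V => F y) hWL.eq
      exact this.symm
    have e2 : L (Φ y) = Φ u := by
      have := congrArg (fun F : Module.End ℤ V => F y) hΦL.eq
      exact this.symm
    rw [e1, e2] at h
    exact h
  have h2 : Φ (W u) = W (Φ u) := by
    have := congrArg (fun F : Module.End ℤ V => F u) hc.eq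
    exact this.symm
  have h3 : W (W u) = u := by
    have := congrArg (fun F : Module.End ℤ V => F u) hW
    exact this
  have h4 : Φ (Φ u) - u = 0 := by
    have e1 := congrArg Φ h1
    have e2 := congrArg W h1
    rw [map_add, map_zero] at e1 e2
    rw [h3] at e2
    rw [h2] at e1
    have : Φ (Φ u) - u = (W (Φ u) + Φ (Φ u)) - (u + W (Φ u)) := by abel
    rw [this, e1, e2, sub_zero]
  rw [map_mul, Module.End.mul_apply, ← hL, ← hu]
  have h5 : (X ^ 2 - 1 : ℤ[X]) = X ^ 2 - C 1 := by simp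
  rw [h5, aeval_sq_sub, one_smul]
  exact h4

/-- Pure algebra: from `(Φ² - 1)(Φ² - q²)² y = 0` to `(t² - (q+1)²)² y = 0`, `t = Φ + q Φ⁻¹`. -/
theorem sq_sub_sq_apply_eq_zero (Φ Ψ t : Module.End ℤ V) (h1 : Φ * Ψ = 1) (h2 : Ψ * Φ = 1) (q : ℤ)
    (ht : t = Φ + (q : Module.End ℤ V) * Ψ) (y : V)
    (h : aeval Φ ((X ^ 2 - 1) * (X ^ 2 - C (q ^ 2)) ^ 2 : ℤ[X]) y = 0) :
    ((t * t - ((q + 1) ^ 2 : ℤ)) ^ 2 : Module.End ℤ V) y = 0 := by
  have hq : ∀ a : Module.End ℤ V, Commute (q : Module.End ℤ V) a := fun a => Int.cast_commute q a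
  have htΦ : t * Φ = aeval Φ (X ^ 2 + C q : ℤ[X]) := by
    rw [ht, add_mul, mul_assoc, h2, mul_one]
    simp [pow_two]
  have hΦt : Φ * t = aeval Φ (X ^ 2 + C q : ℤ[X]) := by
    rw [ht, mul_add, ← mul_assoc, ← (hq Φ).eq, mul_assoc, h1, mul_one]
    simp [pow_two]
  have hcomm : Commute t Φ := by rw [Commute, SemiconjBy, htΦ, hΦt]
  set K : Module.End ℤ V := t * t - ((q + 1) ^ 2 : ℤ) with hK
  have hKΦ : Commute K Φ := by
    rw [hK]
    exact (hcomm.mul_left hcomm).sub_left (Int.cast_commute _ _)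
  have hB : K * Φ ^ 2 = aeval Φ ((X ^ 2 - C (q ^ 2)) * (X ^ 2 - 1) : ℤ[X]) := by
    have e1 : t * t * Φ ^ 2 = aeval Φ ((X ^ 2 + C q) ^ 2 : ℤ[X]) := by
      rw [map_pow, pow_two Φ, pow_two (aeval Φ (X ^ 2 + C q : ℤ[X])), ← mul_assoc, mul_assoc t t Φ,
        htΦ, mul_assoc,
        (commute_aeval (Commute.refl Φ) (X ^ 2 + C q : ℤ[X])).eq.symm, ← mul_assoc, htΦ]
    rw [hK, sub_mul, e1]
    have e2 : (((q + 1) ^ 2 : ℤ) : Module.End ℤ V) * Φ ^ 2
        = aeval Φ (C ((q + 1) ^ 2) * X ^ 2 : ℤ[X]) := by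
      simp
    rw [e2, ← map_sub]
    congr 1
    simp only [map_pow, map_add, map_one]
    ring
  have hB2 : K ^ 2 * Φ ^ 4 = aeval Φ ((X ^ 2 - 1) * ((X ^ 2 - 1) * (X ^ 2 - C (q ^ 2)) ^ 2) : ℤ[X]) := by
    have : K ^ 2 * Φ ^ 4 = (K * Φ ^ 2) ^ 2 := by
      rw [(hKΦ.pow_right 2).mul_pow, ← pow_mul]
    rw [this, hB, ← map_pow]
    congr 1
    ring
  have h3 : (K ^ 2 * Φ ^ 4) y = 0 := by
    rw [hB2, map_mul, Module.End.mul_apply, h, map_zero]
  have h4 : Ψ ^ 4 * Φ ^ 4 = 1 := by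
    have : Commute Ψ Φ := by rw [Commute, SemiconjBy, h1, h2]
    rw [← this.mul_pow, h2, one_pow]
  have h5 : K ^ 2 = Ψ ^ 4 * (K ^ 2 * Φ ^ 4) := by
    rw [((hKΦ.pow_left 2).pow_right 4).eq, ← mul_assoc, h4, one_mul]
  rw [h5, Module.End.mul_apply, h3, map_zero]

end Alg

noncomputable section

variable {M q m : ℕ} [NeZero M] [NeZero q] [NeZero (M * q)] {w : FF (M * q) →ₐ[Qb] FF (M * q)}

/-- `(φ² - 1)(φ² - q²)² = 0` on the `q`-new part of `Kum (M*q) m`. -/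
theorem ident35 (hq : q.Prime) (hqM : ¬ q ∣ M) (hqm : ¬ q ∣ m) (hc : Crux2 M q m)
    (hw : IsAL M q w) (A : ValuationSubring Qb) (hA : A.LiesOverPrime q) (φ : GQ)
    (hφ : A.IsFrobeniusAt φ q) (y : Kum (M * q) m)
    (h1 : nmKum M q m y = 0) (h2 : nmKum M q m (wKum hw hq m y) = 0) :
    aeval (galRepZ (M * q) m φ) ((X ^ 2 - 1) * (X ^ 2 - C ((q : ℤ) ^ 2)) ^ 2 : ℤ[X]) y = 0 := by
  have key := core35 hq hqM hqm hc hw A hA φ hφ y
  have hX : Xcl hw hq m φ y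
      = galKum (M * q) m φ (galKum (M * q) m φ (wKum hw hq m y + galKum (M * q) m φ y))
        - (q ^ 2) • (wKum hw hq m y + galKum (M * q) m φ y) := by
    unfold Xcl
    rw [h1, h2]
    simp
  rw [hX] at key
  refine aeval_eq_zero_of_invol (galRepZ (M * q) m φ) (wKum hw hq m).toIntLinearMap ?_ ?_ _ y ?_
  · ext x
    exact wKum_wKum hw hq x
  · ext x
    exact (galKum_wKum hw hq φ x).symm
  · rw [pow_two, map_mul, Module.End.mul_apply, aeval_sq_sub, aeval_sq_sub]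
    have e : ∀ z : Kum (M * q) m, ((q : ℤ) ^ 2) • z = (q ^ 2) • z := by
      intro z
      rw [← natCast_zsmul]
      push_cast
      rfl
    simp only [e]
    exact sub_eq_zero.mpr key

/-- The operator identity: `(t² - (q+1)²)² P(T) = 0` on `Kum (M*q) m` if `P(T) = 0` on `Kum M m`. -/
theorem ident35_hecke (hm : m ≠ 0) (hq : q.Prime) (hqM : ¬ q ∣ M) (hqm : ¬ q ∣ m)
    (hc2 : Crux2 M q m) (S : Finset ℕ)
    (hNS : ∀ r : ℕ, r.Prime → r ∣ M * q → r ∈ S) (hMS : ∀ r : ℕ, r.Prime → r ∣ M → r ∈ S)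
    (hc : ∀ ℓ : GP S, Crux (M * q) ℓ.1 m) (hc' : ∀ ℓ : GP S, Crux M ℓ.1 m)
    (A : ValuationSubring Qb) (hA : A.LiesOverPrime q) (φ : GQ)
    (hφ : A.IsFrobeniusAt φ q) (P : FreeAlgebra ℤ (GP S))
    (hP : FreeAlgebra.lift ℤ (fun ℓ : GP S => heckeT M m (ℓ.good hMS)) P = 0)
    (t : Module.End ℤ (Kum (M * q) m))
    (ht : t = galRepZ (M * q) m φ + ((q : ℤ) : Module.End ℤ (Kum (M * q) m)) * galRepZ (M * q) m φ⁻¹) :
    (t * t - (((q : ℤ) + 1) ^ 2 : ℤ)) ^ 2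
      * FreeAlgebra.lift ℤ (fun ℓ : GP S => heckeT (M * q) m (ℓ.good hNS)) P = 0 := by
  obtain ⟨w, hw⟩ := exists_isAL M q hq hqM
  ext x
  rw [Module.End.mul_apply, LinearMap.zero_apply]
  set y := FreeAlgebra.lift ℤ (fun ℓ : GP S => heckeT (M * q) m (ℓ.good hNS)) P x with hy
  have h1 : nmKum M q m y = 0 := by
    rw [hy, lift_comm hm (nmKum M q m) (fun σ x => (galKum_nmKum hq hqM σ x).symm) S hNS hMS hc hc',
      hP, LinearMap.zero_apply]
  have h2 : nmKum M q m (wKum hw hq m y) = 0 := by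
    rw [hy, lift_comm hm (wKum hw hq m) (fun σ x => (galKum_wKum hw hq σ x).symm) S hNS hNS hc hc,
      lift_comm hm (nmKum M q m) (fun σ x => (galKum_nmKum hq hqM σ x).symm) S hNS hMS hc hc',
      hP, LinearMap.zero_apply]
  refine sq_sub_sq_apply_eq_zero (galRepZ (M * q) m φ) (galRepZ (M * q) m φ⁻¹) t ?_ ?_ (q : ℤ) ht y
    (ident35 hq hqM hqm hc2 hw A hA φ hφ y h1 h2)
  · rw [← map_mul, mul_inv_cancel, map_one]
  · rw [← map_mul, inv_mul_cancel, map_one]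

end

end Fermat.Agent.SS
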